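import Mathlib
import Fermat.Prelude.Def_CuspForm_IntegralStructure
import Fermat.Prelude.Thm_CongruenceSubgroup_one_mem_strictPeriods_Gamma0
import Fermat.Prelude.Thm_ModularForm_sturm_bound_Gamma0

/-!
# Basic vocabulary for the integral-structure project (helper22)

* `Nice F`: `F : ℍ → ℂ` is holomorphic, `1`-periodic and bounded at `i∞`.
* `niceAlg`: the `ℂ`-subalgebra of nice functions; `qxHom : niceAlg →ₐ[ℂ] ℂ⟦X⟧` the (injective)
  `q`-expansion algebra homomorphism.
-/

set_option autoImplicit false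

open UpperHalfPlane ModularForm CongruenceSubgroup Function
open scoped MatrixGroups ModularForm Manifold

namespace Fermat.Agent.H22

/-- `F` is holomorphic on `ℍ`, `1`-periodic and bounded at `i∞`. -/
structure Nice (F : ℍ → ℂ) : Prop where
  per : Periodic (F ∘ ofComplex) 1
  hol : MDiff F
  bdd : IsBoundedAtImInfty F

namespace Nice

variable {F G : ℍ → ℂ}

lemma analytic (h : Nice F) : AnalyticAt ℂ (cuspFunction 1 F) 0 :=
  analyticAt_cuspFunction_zero one_pos h.per h.hol h.bdd

lemma const (c : ℂ) : Nice (fun _ : ℍ => c) where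
  per := fun _ => rfl
  hol := mdifferentiable_const
  bdd := Filter.const_boundedAtFilter _ c

lemma zero : Nice (0 : ℍ → ℂ) := const 0

lemma one : Nice (1 : ℍ → ℂ) := const 1

lemma add (hF : Nice F) (hG : Nice G) : Nice (F + G) where
  per := fun z => by
    have h1 := hF.per z
    have h2 := hG.per z
    simp only [comp_apply, Pi.add_apply] at h1 h2 ⊢
    rw [h1, h2]
  hol := hF.hol.add hG.hol
  bdd := hF.bdd.add hG.bdd

lemma mul (hF : Nice F) (hG : Nice G) : Nice (F * G) where
  per := fun z => by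
    have h1 := hF.per z
    have h2 := hG.per z
    simp only [comp_apply, Pi.mul_apply] at h1 h2 ⊢
    rw [h1, h2]
  hol := hF.hol.mul hG.hol
  bdd := hF.bdd.mul hG.bdd

lemma smul (c : ℂ) (hF : Nice F) : Nice (c • F) := by
  have : c • F = (fun _ : ℍ => c) * F := by
    ext z; simp
  rw [this]
  exact (const c).mul hF

lemma neg (hF : Nice F) : Nice (-F) := by
  have : -F = (-1 : ℂ) • F := by ext z; simp
  rw [this]
  exact hF.smul _

lemma sub (hF : Nice F) (hG : Nice G) : Nice (F - G) := by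
  rw [sub_eq_add_neg]
  exact hF.add hG.neg

lemma pow (hF : Nice F) (n : ℕ) : Nice (F ^ n) := by
  induction n with
  | zero => simpa using one
  | succ n ih => rw [pow_succ]; exact ih.mul hF

lemma sum {ι : Type*} (s : Finset ι) (f : ι → ℍ → ℂ) (h : ∀ i ∈ s, Nice (f i)) :
    Nice (∑ i ∈ s, f i) := by
  classical
  induction s using Finset.induction_on with
  | empty => simpa using zero
  | insert a s ha ih =>
    rw [Finset.sum_insert ha]
    exact (h a (Finset.mem_insert_self a s)).add
      (ih fun i hi => h i (Finset.mem_insert_of_mem hi))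

end Nice

/-- The subalgebra of nice functions. -/
def niceAlg : Subalgebra ℂ (ℍ → ℂ) where
  carrier := {F | Nice F}
  mul_mem' := fun hF hG => hF.mul hG
  add_mem' := fun hF hG => hF.add hG
  algebraMap_mem' := fun c => Nice.const c

lemma mem_niceAlg {F : ℍ → ℂ} : F ∈ niceAlg ↔ Nice F := Iff.rfl

/-- The `q`-expansion as an algebra homomorphism on nice functions. -/
noncomputable def qxHom : niceAlg →ₐ[ℂ] PowerSeries ℂ where
  toFun F := qExpansion 1 (F : ℍ → ℂ)
  map_one' := by
    show qExpansion 1 (1 : ℍ → ℂ) = 1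
    exact qExpansion_one 1
  map_mul' := fun F G => by
    show qExpansion 1 ((F : ℍ → ℂ) * (G : ℍ → ℂ)) = _
    exact qExpansion_mul (mem_niceAlg.1 F.2).analytic (mem_niceAlg.1 G.2).analytic
  map_zero' := by
    show qExpansion 1 (0 : ℍ → ℂ) = 0
    exact qExpansion_zero 1
  map_add' := fun F G => by
    show qExpansion 1 ((F : ℍ → ℂ) + (G : ℍ → ℂ)) = _
    exact qExpansion_add (mem_niceAlg.1 F.2).analytic (mem_niceAlg.1 G.2).analytic
  commutes' := fun c => by
    show qExpansion 1 (algebraMap ℂ (ℍ → ℂ) c) = _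
    have h1 : (algebraMap ℂ (ℍ → ℂ) c) = c • (1 : ℍ → ℂ) := by
      ext z; simp
    rw [h1, qExpansion_smul Nice.one.analytic, qExpansion_one, Algebra.algebraMap_eq_smul_one]

@[simp] lemma qxHom_apply (F : niceAlg) : qxHom F = qExpansion 1 (F : ℍ → ℂ) := rfl

lemma qxHom_injective : Function.Injective qxHom := by
  rw [injective_iff_map_eq_zero]
  intro F hF
  have hn := mem_niceAlg.1 F.2
  have := (qExpansion_eq_zero_iff one_pos hn.per hn.hol hn.bdd).1 hF
  exact Subtype.ext this

/-- Two nice functions with the same `q`-expansion are equal. -/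
lemma Nice.eq_of_qExpansion_eq {F G : ℍ → ℂ} (hF : Nice F) (hG : Nice G)
    (h : qExpansion 1 F = qExpansion 1 G) : F = G := by
  have := @qxHom_injective ⟨F, hF⟩ ⟨G, hG⟩ h
  exact congrArg Subtype.val this

lemma Nice.eq_zero_of_qExpansion_eq_zero {F : ℍ → ℂ} (hF : Nice F)
    (h : qExpansion 1 F = 0) : F = 0 :=
  (qExpansion_eq_zero_iff one_pos hF.per hF.hol hF.bdd).1 h

/-! ### `q`-expansion of sums, products, powers of nice functions -/

lemma qx_add {F G : ℍ → ℂ} (hF : Nice F) (hG : Nice G) :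
    qExpansion 1 (F + G) = qExpansion 1 F + qExpansion 1 G :=
  qExpansion_add hF.analytic hG.analytic

lemma qx_mul {F G : ℍ → ℂ} (hF : Nice F) (hG : Nice G) :
    qExpansion 1 (F * G) = qExpansion 1 F * qExpansion 1 G :=
  qExpansion_mul hF.analytic hG.analytic

lemma qx_smul (c : ℂ) {F : ℍ → ℂ} (hF : Nice F) :
    qExpansion 1 (c • F) = c • qExpansion 1 F :=
  qExpansion_smul hF.analytic c

lemma qx_pow {F : ℍ → ℂ} (hF : Nice F) (n : ℕ) :
    qExpansion 1 (F ^ n) = qExpansion 1 F ^ n := by
  induction n with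
  | zero => simpa using qExpansion_one 1
  | succ n ih => rw [pow_succ, pow_succ, qx_mul (hF.pow n) hF, ih]

lemma qx_sum {ι : Type*} (s : Finset ι) (f : ι → ℍ → ℂ) (h : ∀ i ∈ s, Nice (f i)) :
    qExpansion 1 (∑ i ∈ s, f i) = ∑ i ∈ s, qExpansion 1 (f i) := by
  classical
  induction s using Finset.induction_on with
  | empty => simpa using qExpansion_zero 1
  | insert a s ha ih =>
    rw [Finset.sum_insert ha, Finset.sum_insert ha,
      qx_add (h a (Finset.mem_insert_self a s))
        (Nice.sum s f fun i hi => h i (Finset.mem_insert_of_mem hi)),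
      ih fun i hi => h i (Finset.mem_insert_of_mem hi)]

/-! ### Modular forms are nice -/

lemma nice_of_modularForm {Γ : Subgroup (GL (Fin 2) ℝ)} [Γ.IsArithmetic] {k : ℤ}
    (h1 : (1 : ℝ) ∈ Γ.strictPeriods) (f : ModularForm Γ k) : Nice (⇑f) where
  per := SlashInvariantFormClass.periodic_comp_ofComplex f h1
  hol := ModularFormClass.holo f
  bdd := ModularFormClass.bdd_at_infty f

lemma nice_of_cuspForm {Γ : Subgroup (GL (Fin 2) ℝ)} [Γ.IsArithmetic] {k : ℤ}
    (h1 : (1 : ℝ) ∈ Γ.strictPeriods) (f : CuspForm Γ k) : Nice (⇑f) where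
  per := SlashInvariantFormClass.periodic_comp_ofComplex f h1
  hol := CuspFormClass.holo f
  bdd := ModularFormClass.bdd_at_infty f

lemma nice_levelOne {k : ℤ} (f : ModularForm 𝒮ℒ k) : Nice (⇑f) :=
  nice_of_modularForm one_mem_strictPeriods_SL f

lemma nice_levelOne_cusp {k : ℤ} (f : CuspForm 𝒮ℒ k) : Nice (⇑f) :=
  nice_of_cuspForm one_mem_strictPeriods_SL f

lemma nice_Gamma0 {N : ℕ} [NeZero N] {k : ℤ} (f : ModularForm (Gamma0 N) k) : Nice (⇑f) :=
  nice_of_modularForm (one_mem_strictPeriods_Gamma0 N) f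

lemma nice_Gamma0_cusp {N : ℕ} [NeZero N] {k : ℤ} (f : CuspForm (Gamma0 N) k) : Nice (⇑f) :=
  nice_of_cuspForm (one_mem_strictPeriods_Gamma0 N) f

end Fermat.Agent.H22
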