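import Mathlib
import Fermat.Agent.H18.SeparatingForm
import Fermat.Agent.H98.INT4_LevelOne
import Fermat.Agent.H22.Basic

/-!
# INT-5 (b): the `q`-expansion of `E₄ ∣[4] diag(N, 1)` has integer coefficients
(backup proof by helper22)
-/

set_option autoImplicit false

open UpperHalfPlane ModularForm CongruenceSubgroup MatrixGroups Matrix Filter Topology
open scoped ModularForm

namespace Fermat.Agent.H22

open Fermat.Agent.H18 in
/-- The separating form `t = E₄ ∣[4] diag(N, 1)`, i.e. `t(τ) = N ^ 3 * E₄(N τ)`. -/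
noncomputable def sepForm (N : ℕ) [NeZero N] : ModularForm (Gamma0 N) 4 :=
  restrictLevel (Gamma0_le_conj N) (ModularForm.translate E₄ (levelMat N))

open Fermat.Agent.H18 in
lemma coe_sepForm (N : ℕ) [NeZero N] :
    ⇑(sepForm N) = ⇑E₄ ∣[(4 : ℤ)] levelMat N := rfl

open Fermat.Agent.H18 in
lemma sepForm_apply (N : ℕ) [NeZero N] (τ : ℍ) :
    sepForm N τ = (N : ℂ) ^ 3 * E₄ (levelMat N • τ) := by
  have hN : (0 : ℝ) < ((N : ℤ) : ℝ) := by
    have := Nat.pos_of_ne_zero (NeZero.ne N)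
    exact_mod_cast this
  have h1 : (0 : ℝ) < ((1 : ℤ) : ℝ) := by norm_num
  rw [coe_sepForm]
  have := slash_upperGL_apply (⇑E₄) 4 ((N : ℤ) : ℝ) ((0 : ℤ) : ℝ) ((1 : ℤ) : ℝ) hN h1 τ
  rw [levelMat]
  rw [this]
  simp only [Int.cast_natCast, Int.cast_one, mul_one, Complex.ofReal_natCast, Complex.ofReal_one,
    _root_.one_zpow]
  have : ((N : ℂ)) ^ ((4 : ℤ) - 1) = (N : ℂ) ^ 3 := by
    norm_num
  rw [this]
  ring

open Fermat.Agent.H18 in
lemma coe_levelMat_smul (N : ℕ) [NeZero N] (τ : ℍ) :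
    ((levelMat N • τ : ℍ) : ℂ) = (N : ℂ) * τ := by
  have hN : (0 : ℝ) < ((N : ℤ) : ℝ) := by
    have := Nat.pos_of_ne_zero (NeZero.ne N)
    exact_mod_cast this
  have h1 : (0 : ℝ) < ((1 : ℤ) : ℝ) := by norm_num
  have := coe_upperGL_smul ((N : ℤ) : ℝ) ((0 : ℤ) : ℝ) ((1 : ℤ) : ℝ) hN h1 τ
  rw [levelMat, this]
  simp

open Fermat.Agent.H18 in
lemma qParam_levelMat_smul (N : ℕ) [NeZero N] (τ : ℍ) :
    Function.Periodic.qParam 1 ((levelMat N • τ : ℍ) : ℂ) =
      Function.Periodic.qParam 1 (τ : ℂ) ^ N := by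
  rw [coe_levelMat_smul, Function.Periodic.qParam, Function.Periodic.qParam, ← Complex.exp_nat_mul]
  congr 1
  push_cast
  ring

/-- The `q`-expansion of `t = N ^ 3 * E₄(N τ)`. -/
lemma qExpansion_sepForm_coeff (N : ℕ) [NeZero N] (m : ℕ) :
    PowerSeries.coeff m (qExpansion 1 (⇑(sepForm N))) =
      if N ∣ m then (N : ℂ) ^ 3 * PowerSeries.coeff (m / N) (qExpansion 1 (⇑E₄)) else 0 := by
  classical
  have hN0 : 0 < N := Nat.pos_of_ne_zero (NeZero.ne N)
  symm
  refine qExpansion_coeff_unique (sepForm N)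
    (c := fun m => if N ∣ m then (N : ℂ) ^ 3 * PowerSeries.coeff (m / N) (qExpansion 1 (⇑E₄))
      else 0) one_pos (nice_Gamma0 (sepForm N)).analytic
    (fun τ => ?_) m
  -- the sum for `E₄` at `N τ`
  have hE := nice_levelOne E₄
  have h1 := hasSum_qExpansion one_pos hE.per hE.hol hE.bdd (Fermat.Agent.H18.levelMat N • τ)
  rw [qParam_levelMat_smul] at h1
  have h2 := h1.mul_left ((N : ℂ) ^ 3)
  rw [← sepForm_apply] at h2
  -- reindex along `n ↦ N * n`
  let g : ℕ → ℂ := fun m =>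
    (if N ∣ m then (N : ℂ) ^ 3 * PowerSeries.coeff (m / N) (qExpansion 1 (⇑E₄)) else 0) •
      Function.Periodic.qParam 1 (τ : ℂ) ^ m
  have hinj : Function.Injective (fun n : ℕ => N * n) :=
    fun a b h => Nat.eq_of_mul_eq_mul_left hN0 h
  have hzero : ∀ x, x ∉ Set.range (fun n : ℕ => N * n) → g x = 0 := by
    intro x hx
    have : ¬ N ∣ x := fun ⟨k, hk⟩ => hx ⟨k, hk.symm⟩
    simp [g, this]
  have hcomp : (g ∘ fun n : ℕ => N * n) = fun n : ℕ =>
      (N : ℂ) ^ 3 * (PowerSeries.coeff n (qExpansion 1 (⇑E₄)) •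
        (Function.Periodic.qParam 1 (τ : ℂ) ^ N) ^ n) := by
    funext n
    simp only [g, Function.comp_apply, dvd_mul_right, if_true, Nat.mul_div_cancel_left _ hN0,
      smul_eq_mul, pow_mul]
    ring
  have := (hinj.hasSum_iff hzero).1 (by rw [hcomp]; exact h2)
  exact this

lemma qExpansion_sepForm_int (N : ℕ) [NeZero N] :
    ∀ n, ∃ m : ℤ, PowerSeries.coeff n (qExpansion 1 (⇑(sepForm N))) = (m : ℂ) := by
  intro n
  rw [qExpansion_sepForm_coeff]
  split_ifs with h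
  · obtain ⟨P, hP⟩ := (Fermat.Agent.H98.isGoodSeries_E₄).1
    refine ⟨(N : ℤ) ^ 3 * PowerSeries.coeff (n / N) P, ?_⟩
    rw [← hP, PowerSeries.coeff_map]
    push_cast
    rfl
  · exact ⟨0, by simp⟩

end Fermat.Agent.H22
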