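import Mathlib
import Fermat.Agent.H18.SeparatingForm
import Fermat.Agent.H22.Basic

/-!
# INT-5 (c): the stabiliser of `E₄ ∣[4] diag(N, 1)` in `SL(2, ℤ)` is `Γ₀(N)`
(backup proof by helper22, built on helper18's matrix infrastructure)
-/

set_option autoImplicit false

open UpperHalfPlane ModularForm CongruenceSubgroup MatrixGroups Matrix Filter Topology
open scoped ModularForm

namespace Fermat.Agent.H22

open Fermat.Agent.H18 in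
/-- A nice function tends to its constant `q`-coefficient at `i∞`. -/
lemma Nice.tendsto_coeff_zero {F : ℍ → ℂ} (h : Nice F) :
    Tendsto F atImInfty (𝓝 (PowerSeries.coeff 0 (qExpansion 1 F))) := by
  have h1 : (cuspFunction 1 F ∘ fun τ : ℍ ↦ Function.Periodic.qParam 1 τ) = F :=
    funext fun τ => eq_cuspFunction τ one_ne_zero h.per
  have h2 := h.analytic.continuousAt.tendsto.comp (qParam_tendsto_atImInfty one_pos)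
  rw [h1] at h2
  have h3 : PowerSeries.coeff 0 (qExpansion 1 F) = cuspFunction 1 F 0 := by
    simp [qExpansion_coeff]
  rw [h3]
  exact h2

lemma tendsto_E4_atImInfty : Tendsto (⇑E₄) atImInfty (𝓝 1) := by
  have h := (nice_levelOne E₄).tendsto_coeff_zero
  rwa [EisensteinSeries.E_qExpansion_coeff_zero _ ⟨2, rfl⟩] at h

open Fermat.Agent.H18 in
lemma tendsto_upperGL_smul (a b d : ℝ) (ha : 0 < a) (hd : 0 < d) :
    Tendsto (fun τ : ℍ => upperGL a b d (mul_pos ha hd).ne' • τ) atImInfty atImInfty := by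
  rw [atImInfty, tendsto_comap_iff]
  have : (UpperHalfPlane.im ∘ fun τ : ℍ => upperGL a b d (mul_pos ha hd).ne' • τ) =
      fun τ : ℍ => (a / d) * τ.im := by
    funext τ
    simp only [Function.comp_apply]
    rw [im_upperGL_smul a b d ha hd τ]
    ring
  rw [this]
  exact (tendsto_id.const_mul_atTop (div_pos ha hd)).comp tendsto_comap

open Fermat.Agent.H18 in
/-- If `E₄ ∣[4] upperGL g B D = E₄ ∣[4] diag(N, 1)` with `g D = N`, then `D = 1`. -/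
lemma eq_one_of_slash_E4_eq (N g D : ℕ) (B : ℤ) (hg : 0 < g) (hD : 0 < D)
    (hN : N = g * D)
    (hne1 : (((g : ℤ) : ℝ) * ((D : ℤ) : ℝ)) ≠ 0) (hne2 : (((N : ℤ) : ℝ) * ((1 : ℤ) : ℝ)) ≠ 0)
    (h : ⇑E₄ ∣[(4 : ℤ)] upperGL ((g : ℤ) : ℝ) (B : ℝ) ((D : ℤ) : ℝ) hne1 =
      ⇑E₄ ∣[(4 : ℤ)] upperGL ((N : ℤ) : ℝ) ((0 : ℤ) : ℝ) ((1 : ℤ) : ℝ) hne2) :
    D = 1 := by
  have hgR : (0 : ℝ) < ((g : ℤ) : ℝ) := by exact_mod_cast hg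
  have hDR : (0 : ℝ) < ((D : ℤ) : ℝ) := by exact_mod_cast hD
  have hNpos : 0 < N := by rw [hN]; exact Nat.mul_pos hg hD
  have hNR : (0 : ℝ) < ((N : ℤ) : ℝ) := by exact_mod_cast hNpos
  have h1R : (0 : ℝ) < ((1 : ℤ) : ℝ) := by norm_num
  have hNgD : ((N : ℤ) : ℝ) = ((g : ℤ) : ℝ) * ((D : ℤ) : ℝ) := by
    rw [hN]; push_cast; ring
  -- the two sides as explicit functions
  have hL : Tendsto (⇑E₄ ∣[(4 : ℤ)] upperGL ((g : ℤ) : ℝ) (B : ℝ) ((D : ℤ) : ℝ) hne1) atImInfty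
      (𝓝 (1 * ((((g : ℤ) : ℝ) * ((D : ℤ) : ℝ) : ℝ) : ℂ) ^ ((4 : ℤ) - 1) *
        ((((D : ℤ) : ℝ)) : ℂ) ^ (-(4 : ℤ)))) := by
    have hfun : (⇑E₄ ∣[(4 : ℤ)] upperGL ((g : ℤ) : ℝ) (B : ℝ) ((D : ℤ) : ℝ) hne1) =
        fun τ : ℍ => E₄ (upperGL ((g : ℤ) : ℝ) (B : ℝ) ((D : ℤ) : ℝ) (mul_pos hgR hDR).ne' • τ) *
          ((((g : ℤ) : ℝ) * ((D : ℤ) : ℝ) : ℝ) : ℂ) ^ ((4 : ℤ) - 1) *
          ((((D : ℤ) : ℝ)) : ℂ) ^ (-(4 : ℤ)) := by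
      funext τ
      exact slash_upperGL_apply (⇑E₄) 4 _ _ _ hgR hDR τ
    rw [hfun]
    exact ((tendsto_E4_atImInfty.comp (tendsto_upperGL_smul _ _ _ hgR hDR)).mul_const _).mul_const _
  have hR : Tendsto (⇑E₄ ∣[(4 : ℤ)] upperGL ((N : ℤ) : ℝ) ((0 : ℤ) : ℝ) ((1 : ℤ) : ℝ) hne2)
      atImInfty
      (𝓝 (1 * ((((N : ℤ) : ℝ) * ((1 : ℤ) : ℝ) : ℝ) : ℂ) ^ ((4 : ℤ) - 1) *
        ((((1 : ℤ) : ℝ)) : ℂ) ^ (-(4 : ℤ)))) := by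
    have hfun : (⇑E₄ ∣[(4 : ℤ)] upperGL ((N : ℤ) : ℝ) ((0 : ℤ) : ℝ) ((1 : ℤ) : ℝ) hne2) =
        fun τ : ℍ => E₄ (upperGL ((N : ℤ) : ℝ) ((0 : ℤ) : ℝ) ((1 : ℤ) : ℝ)
            (mul_pos hNR h1R).ne' • τ) *
          ((((N : ℤ) : ℝ) * ((1 : ℤ) : ℝ) : ℝ) : ℂ) ^ ((4 : ℤ) - 1) *
          ((((1 : ℤ) : ℝ)) : ℂ) ^ (-(4 : ℤ)) := by
      funext τ
      exact slash_upperGL_apply (⇑E₄) 4 _ _ _ hNR h1R τ
    rw [hfun]
    exact ((tendsto_E4_atImInfty.comp (tendsto_upperGL_smul _ _ _ hNR h1R)).mul_const _).mul_const _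
  rw [h] at hL
  have heq := tendsto_nhds_unique hL hR
  -- now pure arithmetic: (g D)^3 / D^4 = N^3
  have hDC : ((((D : ℤ) : ℝ)) : ℂ) ≠ 0 := by exact_mod_cast hDR.ne'
  have hNC : ((((N : ℤ) : ℝ)) : ℂ) ≠ 0 := by exact_mod_cast hNR.ne'
  rw [← hNgD] at heq
  simp only [one_mul, Int.cast_one, mul_one, Complex.ofReal_one, _root_.one_zpow] at heq
  have h3 : ((((N : ℤ) : ℝ)) : ℂ) ^ ((4 : ℤ) - 1) ≠ 0 := zpow_ne_zero _ hNC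
  have h4 : ((((D : ℤ) : ℝ)) : ℂ) ^ (-(4 : ℤ)) = 1 := by
    have := mul_left_cancel₀ h3 (heq.trans (mul_one _).symm)
    exact this
  have h5 : ((((D : ℤ) : ℝ)) : ℂ) ^ (4 : ℕ) = 1 := by
    have : ((((D : ℤ) : ℝ)) : ℂ) ^ (4 : ℤ) = 1 := by
      rw [_root_.zpow_neg, inv_eq_one] at h4
      exact h4
    exact_mod_cast this
  have h6 : ((D : ℝ)) ^ (4 : ℕ) = 1 := by
    have : (((D : ℝ) ^ (4 : ℕ) : ℝ) : ℂ) = 1 := by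
      push_cast
      simpa using h5
    exact_mod_cast this
  have h7 : (D : ℝ) = 1 := by
    have hD0 : (0 : ℝ) ≤ (D : ℝ) := by positivity
    nlinarith [sq_nonneg ((D : ℝ) - 1), sq_nonneg ((D : ℝ) + 1), sq_nonneg ((D : ℝ) ^ 2 - 1),
      pow_pos (show (0 : ℝ) < (D : ℝ) from by exact_mod_cast hD) 2]
  exact_mod_cast h7

open Fermat.Agent.H18 in
/-- The stabiliser of `E₄ ∣[4] diag(N, 1)` in `SL(2, ℤ)` is contained in `Γ₀(N)`. -/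
theorem mem_Gamma0_of_slash_E4_eq (N : ℕ) [NeZero N] (γ : SL(2, ℤ))
    (hγ : (⇑E₄ ∣[(4 : ℤ)] levelMat N) ∣[(4 : ℤ)] γ = ⇑E₄ ∣[(4 : ℤ)] levelMat N) : γ ∈ Gamma0 N := by
  have hN0 : 0 < N := Nat.pos_of_ne_zero (NeZero.ne N)
  have hdet : γ 0 0 * γ 1 1 - γ 0 1 * γ 1 0 = 1 := by
    have := γ.det_coe
    rwa [Matrix.det_fin_two] at this
  -- g = gcd(c, N), D = N / g, c₁ = c / g
  set g : ℕ := Int.gcd (γ 1 0) N with hg_def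
  have hg_pos : 0 < g := Int.gcd_pos_of_ne_zero_right _ (by exact_mod_cast hN0.ne')
  have hgN : (g : ℤ) ∣ (N : ℤ) := Int.gcd_dvd_right _ _
  have hgc : (g : ℤ) ∣ γ 1 0 := Int.gcd_dvd_left _ _
  obtain ⟨D', hD'⟩ := hgN
  obtain ⟨c₁, hc₁⟩ := hgc
  have hD'pos : 0 < D' := by
    have : (0 : ℤ) < (g : ℤ) * D' := by rw [← hD']; exact_mod_cast hN0
    exact pos_of_mul_pos_left (by rwa [mul_comm] at this) (by exact_mod_cast hg_pos.le)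
  obtain ⟨D, rfl⟩ : ∃ D : ℕ, (D : ℤ) = D' := ⟨D'.toNat, Int.toNat_of_nonneg hD'pos.le⟩
  have hDpos : 0 < D := by exact_mod_cast hD'pos
  have hND : N = g * D := by exact_mod_cast hD'
  -- coprimality
  have hcop1 : IsCoprime c₁ (D : ℤ) := by
    have h := Int.isCoprime_iff_gcd_eq_one.mpr
      (Int.gcd_div_gcd_div_gcd (i := γ 1 0) (j := (N : ℤ)) hg_pos)
    rw [← hg_def] at h
    have e1 : γ 1 0 / (g : ℤ) = c₁ := by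
      rw [hc₁]; exact Int.mul_ediv_cancel_left _ (by exact_mod_cast hg_pos.ne')
    have e2 : (N : ℤ) / (g : ℤ) = D := by
      rw [hD']; exact Int.mul_ediv_cancel_left _ (by exact_mod_cast hg_pos.ne')
    rwa [e1, e2] at h
  have hcop2 : IsCoprime (γ 0 0) c₁ := by
    refine ⟨γ 1 1, -(γ 0 1 * g), ?_⟩
    rw [hc₁] at hdet
    linear_combination hdet
  have hcop : IsCoprime ((D : ℤ) * γ 0 0) c₁ := IsCoprime.mul_left hcop1.symm hcop2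
  obtain ⟨σ, hσ0, hσ1⟩ := hcop.exists_SL2_col 0
  have hσdet : σ 0 0 * σ 1 1 - σ 0 1 * σ 1 0 = 1 := by
    have := σ.det_coe
    rwa [Matrix.det_fin_two] at this
  rw [hσ0, hσ1] at hσdet
  set B : ℤ := σ 1 1 * N * γ 0 1 - σ 0 1 * γ 1 1 with hB
  have hne1 : (((g : ℤ) : ℝ) * ((D : ℤ) : ℝ)) ≠ 0 := by simp [hg_pos.ne', hDpos.ne']
  have hne2 : (((N : ℤ) : ℝ) * ((1 : ℤ) : ℝ)) ≠ 0 := by simp [hN0.ne']
  have key := mapGL_mul_upperGL_eq σ γ g B D N 0 1 hne1 hne2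
    (by linear_combination (g : ℤ) * hσ0 - (γ 0 0) * hD')
    (by linear_combination (B : ℤ) * hσ0 + ((D : ℤ) * γ 0 0) * hB + ((N : ℤ) * γ 0 1) * hσdet
          - (σ 0 1 * (D : ℤ)) * hdet - (σ 0 1 * (D : ℤ) * γ 0 1) * hc₁
          + (γ 0 1 * σ 0 1 * c₁) * hD')
    (by linear_combination (g : ℤ) * hσ1 - hc₁)
    (by linear_combination (B : ℤ) * hσ1 + c₁ * hB + (γ 1 1) * hσdet
          - (σ 1 1 * (D : ℤ)) * hdet - (σ 1 1 * (D : ℤ) * γ 0 1) * hc₁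
          + (c₁ * σ 1 1 * γ 0 1) * hD')
  -- the function identity
  have hfun : ⇑E₄ ∣[(4 : ℤ)] upperGL ((g : ℤ) : ℝ) (B : ℝ) ((D : ℤ) : ℝ) hne1 =
      ⇑E₄ ∣[(4 : ℤ)] upperGL ((N : ℤ) : ℝ) ((0 : ℤ) : ℝ) ((1 : ℤ) : ℝ) hne2 := by
    have h1 : ⇑E₄ ∣[(4 : ℤ)] (σ : GL (Fin 2) ℝ) = ⇑E₄ := by
      have := SlashInvariantFormClass.slash_action_eq E₄
        (σ : GL (Fin 2) ℝ) ⟨σ, rfl⟩
      simpa using this
    calc ⇑E₄ ∣[(4 : ℤ)] upperGL ((g : ℤ) : ℝ) (B : ℝ) ((D : ℤ) : ℝ) hne1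
        = (⇑E₄ ∣[(4 : ℤ)] (σ : GL (Fin 2) ℝ)) ∣[(4 : ℤ)]
            upperGL ((g : ℤ) : ℝ) (B : ℝ) ((D : ℤ) : ℝ) hne1 := by rw [h1]
      _ = ⇑E₄ ∣[(4 : ℤ)] ((σ : GL (Fin 2) ℝ) *
            upperGL ((g : ℤ) : ℝ) (B : ℝ) ((D : ℤ) : ℝ) hne1) := by
          rw [SlashAction.slash_mul]
      _ = ⇑E₄ ∣[(4 : ℤ)] (upperGL ((N : ℤ) : ℝ) ((0 : ℤ) : ℝ) ((1 : ℤ) : ℝ) hne2 *
            (γ : GL (Fin 2) ℝ)) := by rw [key]
      _ = (⇑E₄ ∣[(4 : ℤ)] upperGL ((N : ℤ) : ℝ) ((0 : ℤ) : ℝ) ((1 : ℤ) : ℝ) hne2) ∣[(4 : ℤ)]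
            (γ : GL (Fin 2) ℝ) := by rw [SlashAction.slash_mul]
      _ = ⇑E₄ ∣[(4 : ℤ)] upperGL ((N : ℤ) : ℝ) ((0 : ℤ) : ℝ) ((1 : ℤ) : ℝ) hne2 := hγ
  have hD1 : D = 1 := eq_one_of_slash_E4_eq N g D B hg_pos hDpos hND hne1 hne2 hfun
  rw [Gamma0_mem, ZMod.intCast_zmod_eq_zero_iff_dvd]
  rw [hD1] at hD'
  rw [hc₁, hD']
  simp


end Fermat.Agent.H22
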