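import Mathlib
import Fermat.Agent.H22.Basic
import Fermat.Agent.H22.SepStab
import Fermat.Agent.H22.SepQExp
import Fermat.Agent.H75.Interpolation
import Fermat.Agent.H33.IntegralDivision
import Fermat.Agent.H1.GaloisDescentRat
import Fermat.Agent.H32.BoundedDenominators
import Fermat.Agent.H98.INT4_LevelOne
import Fermat.Agent.H82.CharPoly

/-!
# The sub-lemmas INT-1 .. INT-8 of project P-INT, collected from the helpers' modules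
-/

set_option autoImplicit false

open UpperHalfPlane ModularForm CongruenceSubgroup
open scoped MatrixGroups ModularForm Manifold

namespace Fermat.Agent.H22

/-- (INT-1) -/
theorem exists_ringHom_ne (a : ℂ) (ha : a ∉ Set.range ((↑) : ℚ → ℂ)) :
    ∃ σ : ℂ →+* ℂ, σ a ≠ a :=
  Fermat.Agent.H1.exists_ringHom_ne a ha

/-- (INT-2) -/
theorem span_rat_of_stable (V : Submodule ℂ (PowerSeries ℂ)) [FiniteDimensional ℂ V]
    (hV : ∀ (σ : ℂ →+* ℂ), ∀ v ∈ V, PowerSeries.map σ v ∈ V) :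
    V ≤ Submodule.span ℂ {v | v ∈ V ∧ ∀ n, ∃ r : ℚ, PowerSeries.coeff n v = (r : ℂ)} :=
  Fermat.Agent.H1.span_rat_of_stable' V hV

/-- (INT-3) -/
theorem bounded_denominators (F d q' : PowerSeries ℂ)
    (hF : ∀ n, ∃ r : ℚ, PowerSeries.coeff n F = (r : ℂ))
    (hd : d ∈ Submodule.span ℂ (Set.range (PowerSeries.map (Int.castRingHom ℂ))))
    (hq : q' ∈ Submodule.span ℂ (Set.range (PowerSeries.map (Int.castRingHom ℂ))))
    (hd0 : d ≠ 0) (h1 : F * d = q')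
    (μ : ℕ) (c : ℕ → PowerSeries ℂ)
    (hc : ∀ i, c i ∈ Submodule.span ℂ (Set.range (PowerSeries.map (Int.castRingHom ℂ))))
    (h2 : F ^ μ + ∑ i ∈ Finset.range μ, c i * F ^ i = 0) :
    ∃ D : ℕ, D ≠ 0 ∧ ∀ n, ∃ m : ℤ, (D : ℂ) * PowerSeries.coeff n F = (m : ℂ) :=
  Fermat.Agent.H32.bounded_denominators F d q' hF hd hq hd0 h1 μ c hc h2

/-- (INT-4a) -/
theorem levelOne_conj (σ : ℂ →+* ℂ) (k : ℤ) (g : ModularForm 𝒮ℒ k) :
    ∃ g' : ModularForm 𝒮ℒ k, qExpansion 1 g' = PowerSeries.map σ (qExpansion 1 g) :=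
  Fermat.Agent.H98.levelOne_conj σ k g

/-- (INT-4b) -/
theorem levelOne_conj_cusp (σ : ℂ →+* ℂ) (k : ℤ) (g : CuspForm 𝒮ℒ k) :
    ∃ g' : CuspForm 𝒮ℒ k, qExpansion 1 g' = PowerSeries.map σ (qExpansion 1 g) :=
  Fermat.Agent.H98.levelOne_conj_cusp σ k g

/-- (INT-4c) -/
theorem levelOne_qExpansion_mem_span (k : ℤ) (g : ModularForm 𝒮ℒ k) :
    qExpansion 1 g ∈ Submodule.span ℂ (Set.range (PowerSeries.map (Int.castRingHom ℂ))) :=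
  Fermat.Agent.H98.levelOne_qExpansion_mem_span k g

/-- (INT-5) -/
theorem exists_separating_form (N : ℕ) [NeZero N] :
    ∃ t : ModularForm (Gamma0 N) 4,
      (∀ n, ∃ m : ℤ, PowerSeries.coeff n (qExpansion 1 t) = (m : ℂ)) ∧
      ∀ γ : SL(2, ℤ), (⇑t ∣[(4 : ℤ)] γ = ⇑t) → γ ∈ Gamma0 N :=
  ⟨sepForm N, qExpansion_sepForm_int N, fun γ hγ => mem_Gamma0_of_slash_E4_eq N γ hγ⟩

/-- (INT-6) -/
theorem exists_charpoly (N : ℕ) [NeZero N] (k : ℤ) (f : CuspForm (Gamma0 N) k) :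
    ∃ (μ : ℕ) (c : ℕ → ℍ → ℂ), 0 < μ ∧
      (∀ i < μ, ∃ g : CuspForm 𝒮ℒ (k * ((μ : ℤ) - (i : ℤ))), ⇑g = c i) ∧
      (⇑f) ^ μ + ∑ i ∈ Finset.range μ, c i * (⇑f) ^ i = 0 :=
  Fermat.Agent.H82.exists_charpoly N k f

/-- (INT-7) -/
theorem exists_interpolation (N : ℕ) [NeZero N] (t : ModularForm (Gamma0 N) 4)
    (ht : ∀ γ : SL(2, ℤ), (⇑t ∣[(4 : ℤ)] γ = ⇑t) → γ ∈ Gamma0 N) :
    ∃ (μ : ℕ) (D : ℍ → ℂ), 0 < μ ∧ D ≠ 0 ∧
      ∀ (k : ℤ) (f : ModularForm (Gamma0 N) k),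
        ∃ ℓ : ℕ → ℍ → ℂ,
          (∀ m < μ, ∃ g : ModularForm 𝒮ℒ (k + 4 * ((μ : ℤ) - 1 - (m : ℤ))), ⇑g = ℓ m) ∧
          ⇑f * D = ∑ m ∈ Finset.range μ, ℓ m * (⇑t) ^ m :=
  Fermat.Agent.H75.exists_interpolation N t ht

/-- (INT-8) -/
theorem exists_cuspForm_of_integral (N : ℕ) [NeZero N] (k w : ℤ)
    (P : ModularForm (Gamma0 N) w) (Q : ModularForm (Gamma0 N) (w + k)) (hP : P ≠ 0)
    (μ : ℕ) (hμ : 0 < μ) (c : ℕ → ℍ → ℂ)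
    (hc : ∀ i < μ, ∃ g : CuspForm 𝒮ℒ (k * ((μ : ℤ) - (i : ℤ))), ⇑g = c i)
    (h : (⇑Q) ^ μ + ∑ i ∈ Finset.range μ, c i * (⇑Q) ^ i * (⇑P) ^ (μ - i) = 0) :
    ∃ h : CuspForm (Gamma0 N) k, ∀ z, h z * P z = Q z :=
  Fermat.Agent.H33.exists_cuspForm_of_integral N k w P Q hP μ hμ c hc h

end Fermat.Agent.H22
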