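import Mathlib
import Fermat.Agent.H22.Basic

/-!
# Tools for the assembly: the span of integral power series, restriction of level-one forms,
bundling of `∑ ℓ m * t ^ m`.
-/

set_option autoImplicit false

open UpperHalfPlane ModularForm CongruenceSubgroup Function
open scoped MatrixGroups ModularForm Manifold

namespace Fermat.Agent.H22

/-! ### The `ℂ`-span of integral power series -/

/-- The `ℂ`-span of the power series with integer coefficients. -/
def spanInt : Submodule ℂ (PowerSeries ℂ) :=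
  Submodule.span ℂ (Set.range (PowerSeries.map (Int.castRingHom ℂ)))

lemma mem_spanInt_of_int {p : PowerSeries ℂ}
    (hp : ∀ n, ∃ m : ℤ, PowerSeries.coeff n p = (m : ℂ)) : p ∈ spanInt := by
  refine Submodule.subset_span ⟨PowerSeries.mk fun n => (hp n).choose, ?_⟩
  ext n
  simp only [PowerSeries.coeff_map, PowerSeries.coeff_mk, eq_intCast]
  exact (hp n).choose_spec.symm

lemma one_mem_spanInt : (1 : PowerSeries ℂ) ∈ spanInt :=
  Submodule.subset_span ⟨1, map_one _⟩

lemma mul_mem_spanInt {p q : PowerSeries ℂ} (hp : p ∈ spanInt) (hq : q ∈ spanInt) :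
    p * q ∈ spanInt := by
  have h := Submodule.mul_mem_mul hp hq
  rw [spanInt, Submodule.span_mul_span] at h
  refine Submodule.span_mono ?_ h
  rintro _ ⟨_, ⟨a, rfl⟩, _, ⟨b, rfl⟩, rfl⟩
  exact ⟨a * b, map_mul _ _ _⟩

lemma pow_mem_spanInt {p : PowerSeries ℂ} (hp : p ∈ spanInt) (n : ℕ) : p ^ n ∈ spanInt := by
  induction n with
  | zero => simpa using one_mem_spanInt
  | succ n ih => rw [pow_succ]; exact mul_mem_spanInt ih hp

/-! ### Restriction of level-one forms to `Γ₀(N)` -/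

lemma Gamma0_le_SL (N : ℕ) :
    (Subgroup.map (Matrix.SpecialLinearGroup.mapGL ℝ) (Gamma0 N)) ≤ 𝒮ℒ := by
  rintro _ ⟨γ, -, rfl⟩
  exact ⟨γ, rfl⟩

/-- A level-one modular form, viewed as a modular form on `Γ₀(N)`. -/
def restrictLevelOne (N : ℕ) [NeZero N] {k : ℤ} (g : ModularForm 𝒮ℒ k) :
    ModularForm (Gamma0 N) k where
  toFun := g
  slash_action_eq' γ hγ := g.slash_action_eq' γ (Gamma0_le_SL N hγ)
  holo' := g.holo'
  bdd_at_cusps' hc := g.bdd_at_cusps' (hc.mono (Gamma0_le_SL N))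

@[simp] lemma coe_restrictLevelOne (N : ℕ) [NeZero N] {k : ℤ} (g : ModularForm 𝒮ℒ k) :
    ⇑(restrictLevelOne N g) = ⇑g := rfl

lemma coe_finset_sum_modularForm {Γ : Subgroup (GL (Fin 2) ℝ)} {k : ℤ} {ι : Type*}
    (s : Finset ι) (G : ι → ModularForm Γ k) :
    ⇑(∑ i ∈ s, G i) = ∑ i ∈ s, ⇑(G i) := by
  classical
  induction s using Finset.induction_on with
  | empty => simp
  | insert a s ha ih => rw [Finset.sum_insert ha, Finset.sum_insert ha, ← ih]; rfl

/-- Bundling `∑ m < μ, ℓ m * t ^ m` as a modular form on `Γ₀(N)`. -/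
lemma exists_modularForm_sum (N : ℕ) [NeZero N] (k : ℤ) (μ : ℕ)
    (t : ModularForm (Gamma0 N) 4) (ℓ : ℕ → ℍ → ℂ)
    (hℓ : ∀ m < μ, ∃ g : ModularForm 𝒮ℒ (k + 4 * ((μ : ℤ) - 1 - (m : ℤ))), ⇑g = ℓ m)
    (w : ℤ) (hw : w = k + 4 * ((μ : ℤ) - 1)) :
    ∃ G : ModularForm (Gamma0 N) w, ⇑G = ∑ m ∈ Finset.range μ, ℓ m * (⇑t) ^ m := by
  classical
  have key : ∀ m : ℕ, ∃ G : ModularForm (Gamma0 N) w, m < μ → ⇑G = ℓ m * (⇑t) ^ m := by
    intro m
    by_cases hm : m < μ
    · obtain ⟨g, hg⟩ := hℓ m hm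
      refine ⟨ModularForm.mcast (by rw [hw]; ring) ((restrictLevelOne N g).mul (t.pow m)), ?_⟩
      intro _
      ext z
      simp [← hg]
    · exact ⟨0, fun h => absurd h hm⟩
  choose G hG using key
  refine ⟨∑ m ∈ Finset.range μ, G m, ?_⟩
  rw [coe_finset_sum_modularForm]
  exact Finset.sum_congr rfl fun m hm => hG m (Finset.mem_range.1 hm)

/-! ### The `q`-expansion as a linear map on cusp forms -/

/-- The `q`-expansion as a `ℂ`-linear map on `S_k(Γ₀(N))`. -/
noncomputable def qxLin (N : ℕ) [NeZero N] (k : ℤ) :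
    CuspForm (Gamma0 N) k →ₗ[ℂ] PowerSeries ℂ where
  toFun f := qExpansion 1 f
  map_add' f g := by
    show qExpansion 1 (⇑(f + g)) = _
    rw [show (⇑(f + g) : ℍ → ℂ) = ⇑f + ⇑g from rfl]
    exact qx_add (nice_Gamma0_cusp f) (nice_Gamma0_cusp g)
  map_smul' c f := by
    show qExpansion 1 (⇑(c • f)) = _
    rw [show (⇑(c • f) : ℍ → ℂ) = c • ⇑f from rfl]
    exact qx_smul c (nice_Gamma0_cusp f)

@[simp] lemma qxLin_apply (N : ℕ) [NeZero N] (k : ℤ) (f : CuspForm (Gamma0 N) k) :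
    qxLin N k f = qExpansion 1 f := rfl

lemma qxLin_injective (N : ℕ) [NeZero N] (k : ℤ) : Function.Injective (qxLin N k) := by
  intro f g h
  have := (nice_Gamma0_cusp f).eq_of_qExpansion_eq (nice_Gamma0_cusp g) h
  exact DFunLike.coe_injective this

/-- `S_k(Γ₀(N))` is finite-dimensional (Sturm bound of the prelude). -/
lemma finiteDimensional_cuspForm (N : ℕ) [NeZero N] (k : ℤ) :
    FiniteDimensional ℂ (CuspForm (Gamma0 N) k) := by
  classical
  set B : ℕ := (k * (Gamma0 N).index).toNat / 12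
  let T : CuspForm (Gamma0 N) k →ₗ[ℂ] (Fin (B + 1) → ℂ) :=
    { toFun := fun f i => PowerSeries.coeff (i : ℕ) (qxLin N k f)
      map_add' := fun f g => by funext i; simp [map_add]
      map_smul' := fun c f => by funext i; simp [map_smul] }
  refine FiniteDimensional.of_injective T ?_
  rw [injective_iff_map_eq_zero]
  intro f hf
  have hmf : (ModularFormClass.modularForm f : ModularForm (Gamma0 N) k) = 0 := by
    refine ModularForm.sturm_bound_Gamma0 N _ fun n hn => ?_
    have := congrFun hf ⟨n, Nat.lt_succ_of_le hn⟩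
    simpa [T] using this
  have hcoe : (⇑f : ℍ → ℂ) = 0 := by
    have := congrArg (fun F : ModularForm (Gamma0 N) k => (⇑F : ℍ → ℂ)) hmf
    simpa using this
  exact DFunLike.coe_injective hcoe

end Fermat.Agent.H22
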