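import Mathlib
import Fermat.Agent.H22.TheoremA

/-!
# Theorems B, C and the integral structure of `S_k(Γ₀(N))`
-/

set_option autoImplicit false

open UpperHalfPlane ModularForm CongruenceSubgroup Function
open scoped MatrixGroups ModularForm Manifold

namespace Fermat.Agent.H22

/-- **Theorem B.** `S_k(Γ₀(N))` is spanned by the forms with rational `q`-expansion. -/
theorem span_rational (N : ℕ) [NeZero N] (k : ℤ) :
    Submodule.span ℂ {f : CuspForm (Gamma0 N) k |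
      ∀ n, ∃ r : ℚ, PowerSeries.coeff n (qExpansion 1 f) = (r : ℂ)} = ⊤ := by
  haveI := finiteDimensional_cuspForm N k
  have hV : ∀ σ : ℂ →+* ℂ, ∀ v ∈ LinearMap.range (qxLin N k),
      PowerSeries.map σ v ∈ LinearMap.range (qxLin N k) := by
    rintro σ _ ⟨f, rfl⟩
    obtain ⟨g, hg⟩ := exists_conj N k σ f
    exact ⟨g, hg⟩
  have h := span_rat_of_stable (LinearMap.range (qxLin N k)) hV
  rw [eq_top_iff]
  intro f _
  have hf : qxLin N k f ∈ LinearMap.range (qxLin N k) := ⟨f, rfl⟩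
  have h2 := h hf
  have hset : {v | v ∈ LinearMap.range (qxLin N k) ∧
      ∀ n, ∃ r : ℚ, PowerSeries.coeff n v = (r : ℂ)} =
      qxLin N k '' {f | ∀ n, ∃ r : ℚ, PowerSeries.coeff n (qExpansion 1 f) = (r : ℂ)} := by
    ext v
    constructor
    · rintro ⟨⟨g, rfl⟩, hr⟩
      exact ⟨g, hr, rfl⟩
    · rintro ⟨g, hr, rfl⟩
      exact ⟨⟨g, rfl⟩, hr⟩
  rw [hset, ← Submodule.map_span] at h2
  obtain ⟨f', hf', hff'⟩ := h2
  rwa [← qxLin_injective N k hff']

/-- **Theorem C.** A cusp form on `Γ₀(N)` with rational `q`-expansion has bounded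
denominators. -/
theorem exists_int_multiple (N : ℕ) [NeZero N] (k : ℤ) (f : CuspForm (Gamma0 N) k)
    (hf : ∀ n, ∃ r : ℚ, PowerSeries.coeff n (qExpansion 1 f) = (r : ℂ)) :
    ∃ D : ℕ, D ≠ 0 ∧ ∀ n, ∃ m : ℤ, (D : ℂ) * PowerSeries.coeff n (qExpansion 1 f) = (m : ℂ) := by
  classical
  obtain ⟨t, ht_int, ht_sep⟩ := exists_separating_form N
  obtain ⟨μ, D, hμ, hD0, hint⟩ := exists_interpolation N t ht_sep
  obtain ⟨ℓf, hℓf, hfD⟩ := hint k (ModularFormClass.modularForm f)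
  obtain ⟨ℓ1, hℓ1, h1D⟩ := hint 0 (1 : ModularForm (Gamma0 N) 0)
  obtain ⟨ν, c, hν, hc, hcf⟩ := exists_charpoly N k f
  have hfD' : (⇑f : ℍ → ℂ) * D = ∑ m ∈ Finset.range μ, ℓf m * (⇑t) ^ m := hfD
  have h1D' : D = ∑ m ∈ Finset.range μ, ℓ1 m * (⇑t) ^ m := by
    rw [← h1D, one_coe_eq_one, one_mul]
  have hnt : Nice (⇑t) := nice_Gamma0 t
  have hnf : Nice (⇑f) := nice_Gamma0_cusp f
  have hnℓf : ∀ m < μ, Nice (ℓf m) := fun m hm => by
    obtain ⟨g, hg⟩ := hℓf m hm; rw [← hg]; exact nice_levelOne g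
  have hnℓ1 : ∀ m < μ, Nice (ℓ1 m) := fun m hm => by
    obtain ⟨g, hg⟩ := hℓ1 m hm; rw [← hg]; exact nice_levelOne g
  have hnc : ∀ i < ν, Nice (c i) := fun i hi => by
    obtain ⟨g, hg⟩ := hc i hi; rw [← hg]; exact nice_levelOne_cusp g
  have hnD : Nice D := by
    rw [h1D']
    exact Nice.sum _ _ fun m hm => (hnℓ1 m (Finset.mem_range.1 hm)).mul (hnt.pow m)
  have hqt : qExpansion 1 (⇑t) ∈ spanInt := mem_spanInt_of_int ht_int
  -- membership in the span of integral series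
  have hsum : ∀ (ℓ : ℕ → ℍ → ℂ) (κ : ℤ),
      (∀ m < μ, ∃ g : ModularForm 𝒮ℒ (κ + 4 * ((μ : ℤ) - 1 - (m : ℤ))), ⇑g = ℓ m) →
      qExpansion 1 (∑ m ∈ Finset.range μ, ℓ m * (⇑t) ^ m) ∈ spanInt := by
    intro ℓ κ hℓ
    have hn : ∀ m < μ, Nice (ℓ m) := fun m hm => by
      obtain ⟨g, hg⟩ := hℓ m hm; rw [← hg]; exact nice_levelOne g
    rw [qx_sum _ _ fun m hm => (hn m (Finset.mem_range.1 hm)).mul (hnt.pow m)]
    refine Submodule.sum_mem _ fun m hm => ?_
    have hm' := Finset.mem_range.1 hm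
    rw [qx_mul (hn m hm') (hnt.pow m), qx_pow hnt]
    refine mul_mem_spanInt ?_ (pow_mem_spanInt hqt m)
    obtain ⟨g, hg⟩ := hℓ m hm'
    rw [← hg]
    exact levelOne_qExpansion_mem_span _ g
  have hd : qExpansion 1 D ∈ spanInt := by
    rw [h1D']
    exact hsum ℓ1 0 hℓ1
  have hq : qExpansion 1 ((⇑f : ℍ → ℂ) * D) ∈ spanInt := by
    rw [hfD']
    exact hsum ℓf k hℓf
  have hqD0 : qExpansion 1 D ≠ 0 := fun h => hD0 (hnD.eq_zero_of_qExpansion_eq_zero h)
  have hc' : ∀ i, (if i < ν then qExpansion 1 (c i) else 0) ∈ spanInt := by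
    intro i
    split_ifs with hi
    · obtain ⟨g, hg⟩ := hc i hi
      rw [← hg]
      exact levelOne_qExpansion_mem_span _ (ModularFormClass.modularForm g)
    · exact Submodule.zero_mem _
  have h2 : qExpansion 1 (⇑f) ^ ν +
      ∑ i ∈ Finset.range ν, (if i < ν then qExpansion 1 (c i) else 0) * qExpansion 1 (⇑f) ^ i
        = 0 := by
    have := congrArg (qExpansion 1) hcf
    rw [qx_add (hnf.pow ν) (Nice.sum _ _ fun i hi =>
        (hnc i (Finset.mem_range.1 hi)).mul (hnf.pow i)),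
      qx_pow hnf, qx_sum _ _ fun i hi => (hnc i (Finset.mem_range.1 hi)).mul (hnf.pow i),
      qExpansion_zero] at this
    rw [← this]
    congr 1
    refine Finset.sum_congr rfl fun i hi => ?_
    rw [if_pos (Finset.mem_range.1 hi), qx_mul (hnc i (Finset.mem_range.1 hi)) (hnf.pow i),
      qx_pow hnf]
  exact bounded_denominators (qExpansion 1 (⇑f)) (qExpansion 1 D)
    (qExpansion 1 ((⇑f : ℍ → ℂ) * D)) hf hd hq hqD0 (qx_mul hnf hnD).symm ν _ hc' h2

/-- **The integral structure theorem**, all weights. -/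
theorem hasIntegralStructure (N : ℕ) [NeZero N] (k : ℤ) : CuspForm.HasIntegralStructure N k := by
  unfold CuspForm.HasIntegralStructure
  rw [eq_top_iff, ← span_rational N k, Submodule.span_le]
  intro f hf
  obtain ⟨D, hD0, hD⟩ := exists_int_multiple N k f hf
  have hD0' : (D : ℂ) ≠ 0 := by exact_mod_cast hD0
  have hmem : (D : ℂ) • f ∈ CuspForm.intLattice N k := by
    apply Submodule.subset_span
    intro n
    obtain ⟨m, hm⟩ := hD n
    refine ⟨m, ?_⟩
    rw [← hm]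
    show PowerSeries.coeff n (qExpansion 1 (⇑((D : ℂ) • f))) = _
    rw [show (⇑((D : ℂ) • f) : ℍ → ℂ) = (D : ℂ) • ⇑f from rfl, qx_smul _ (nice_Gamma0_cusp f)]
    simp
  have hfe : f = (D : ℂ)⁻¹ • ((D : ℂ) • f) := by
    rw [smul_smul, inv_mul_cancel₀ hD0', one_smul]
  rw [hfe]
  exact Submodule.smul_mem _ _ (Submodule.subset_span hmem)

end Fermat.Agent.H22
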